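import Fermat.Agent.PeriodicFractions.Basic

/-!
# Recognition of complete quotients, and Serret's theorem

If `ξ (Q u + Q') = P u + P'` with `u > 1`, determinant `± 1` and `0 < Q' < Q`, then `u` is a
complete quotient of `ξ` and `(P, P', Q, Q')` its continuants. So two irrational numbers share a
tail of their continued fractions iff an integral Möbius map of determinant `± 1` carries one to
the other.
-/

set_option autoImplicit false

noncomputable section

namespace FA.PeriodicFractions

theorem contin_det (x : ℝ) : ∀ (n : ℕ) {p p' q q' : ℤ}, contin x n = (p, p', q, q') →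
    p * q' - p' * q = (-1) ^ n := by
  intro n
  induction n with
  | zero =>
    intro p p' q q' he
    simp only [contin, Prod.mk.injEq] at he
    obtain ⟨rfl, rfl, rfl, rfl⟩ := he
    norm_num
  | succ n ih =>
    intro p p' q q' he
    obtain ⟨r, r', s, s', hr⟩ : ∃ r r' s s' : ℤ, contin x n = (r, r', s, s') :=
      ⟨_, _, _, _, rfl⟩
    rw [contin, hr] at he
    simp only [Prod.mk.injEq] at he
    obtain ⟨rfl, rfl, rfl, rfl⟩ := he
    rw [pow_succ, ← ih hr]
    ring

theorem cq_step {ξ u : ℝ} {n : ℕ} {a : ℤ} (hu : 1 < u) (h : cq ξ n = a + 1 / u) :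
    digit ξ n = a ∧ cq ξ (n + 1) = u := by
  have h0 : 0 < 1 / u := one_div_pos.2 (zero_lt_one.trans hu)
  have h1 : 1 / u < 1 := (div_lt_one (zero_lt_one.trans hu)).2 hu
  have hd : digit ξ n = a := Int.floor_eq_iff.2 (by rw [h]; constructor <;> linarith)
  refine ⟨hd, ?_⟩
  rw [cq, Int.fract, ← digit, hd, h, add_sub_cancel_left, one_div, inv_inv]

/-- **Recognition of complete quotients.** -/
theorem exists_index {ξ : ℝ} : ∀ (N : ℕ) {u : ℝ} {P P' Q Q' : ℤ}, Q < N → 1 < u →
    ξ * ((Q : ℝ) * u + Q') = P * u + P' → |P * Q' - P' * Q| = 1 →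
    (0 < Q' ∧ Q' < Q ∨ Q = 1 ∧ Q' = 1 ∧ P = P' + 1 ∨ Q = 1 ∧ Q' = 0 ∧ P' = 1) →
    ∃ n, 0 < n ∧ cq ξ n = u ∧ contin ξ n = (P, P', Q, Q') := by
  intro N
  induction N with
  | zero =>
    intro u P P' Q Q' hN _ _ _ hQ
    simp only [Nat.cast_zero] at hN
    omega
  | succ N ih =>
    intro u P P' Q Q' hN hu h hdet hQ
    have hu0 : 0 < u := zero_lt_one.trans hu
    push_cast at hN
    rcases hQ with ⟨h1, h2⟩ | ⟨rfl, rfl, rfl⟩ | ⟨rfl, rfl, rfl⟩
    · obtain ⟨a, R, rfl, hR0, hR1⟩ : ∃ a R, Q = Q' * a + R ∧ 0 ≤ R ∧ R < Q' :=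
        ⟨Q / Q', Q % Q', (Int.mul_ediv_add_emod Q Q').symm, Int.emod_nonneg Q h1.ne',
          Int.emod_lt_of_pos Q h1⟩
      obtain ⟨S, rfl⟩ : ∃ S, P = P' * a + S := ⟨P - P' * a, by ring⟩
      have ha : 1 ≤ a := by
        by_contra! hlt
        nlinarith [mul_le_mul_of_nonneg_left (Int.le_sub_one_iff.2 hlt) h1.le]
      have hv1 : (1 : ℝ) < a + 1 / u := by
        have : (1 : ℝ) ≤ a := by exact_mod_cast ha
        linarith [one_div_pos.2 hu0]
      have hv : ξ * ((Q' : ℝ) * (a + 1 / u) + R) = P' * (a + 1 / u) + S := by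
        push_cast at h
        field_simp
        linear_combination h
      have hdet' : |P' * R - S * Q'| = 1 := by
        rw [← hdet, show (P' * a + S) * Q' - P' * (Q' * a + R) = -(P' * R - S * Q') by ring,
          abs_neg]
      by_cases hS : 0 < R ∨ S = 1
      · have hQ2 : 0 < R ∧ R < Q' ∨ Q' = 1 ∧ R = 1 ∧ P' = S + 1 ∨ Q' = 1 ∧ R = 0 ∧ S = 1 := by
          rcases hR0.lt_or_eq with hR | rfl
          · exact Or.inl ⟨hR, hR1⟩
          · obtain rfl : S = 1 := hS.resolve_left (lt_irrefl 0)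
            simp only [mul_zero, zero_sub, one_mul, abs_neg, abs_of_pos h1] at hdet'
            exact Or.inr (Or.inr ⟨hdet', rfl, rfl⟩)
        obtain ⟨n, -, hn, hc⟩ := ih (by omega) hv1 hv hdet' hQ2
        obtain ⟨hd, hnext⟩ := cq_step hu hn
        exact ⟨n + 1, n.succ_pos, hnext, by rw [contin, hc, hd]⟩
      · obtain ⟨hR, hS1⟩ := not_or.1 hS
        obtain rfl : R = 0 := by omega
        simp only [mul_zero, zero_sub, abs_neg, abs_mul, abs_of_pos h1] at hdet'
        obtain rfl : Q' = 1 := Int.eq_one_of_mul_eq_one_left h1.le hdet'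
        obtain rfl : S = -1 := by
          rw [mul_one, abs_eq zero_le_one] at hdet'
          exact hdet'.resolve_left hS1
        have ha2 : 2 ≤ a := by omega
        have hv2 : (1 : ℝ) < a + 1 / u - 1 := by
          have : (2 : ℝ) ≤ a := by exact_mod_cast ha2
          linarith [one_div_pos.2 hu0]
        obtain ⟨n, -, hn, hc⟩ := ih (u := a + 1 / u - 1) (P := P') (P' := P' - 1) (Q := 1)
          (Q' := 1) (by omega) hv2 (by push_cast at hv ⊢; linear_combination hv) (by simp)
          (Or.inr (Or.inl ⟨rfl, rfl, by ring⟩))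
        obtain ⟨hd, hnext⟩ := cq_step (a := a - 1) hu (by rw [hn]; push_cast; ring)
        refine ⟨n + 1, n.succ_pos, hnext, ?_⟩
        rw [contin, hc, hd]
        rw [Prod.mk.injEq, Prod.mk.injEq, Prod.mk.injEq]
        exact ⟨by ring, rfl, by ring, rfl⟩
    · have hw : (1 : ℝ) < 1 + 1 / u := by linarith [one_div_pos.2 hu0]
      obtain ⟨d0, c1⟩ := cq_step (ξ := ξ) (n := 0) (a := P') hw (by
        rw [cq]
        push_cast at h
        field_simp
        linear_combination h)
      obtain ⟨d1, c2⟩ := cq_step (ξ := ξ) (n := 1) (a := 1) hu (by rw [c1, Int.cast_one])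
      exact ⟨2, two_pos, c2, by simp [contin, d0, d1]⟩
    · obtain ⟨d0, c1⟩ := cq_step (ξ := ξ) (n := 0) (a := P) hu (by
        rw [cq]
        push_cast at h
        field_simp
        linear_combination h)
      exact ⟨1, one_pos, c1, by simp [contin, d0]⟩

theorem contin_growth {x : ℝ} (hx : Irrational x) : ∀ (n : ℕ) {p p' q q' : ℤ},
    contin x (n + 2) = (p, p', q, q') →
      1 ≤ q' ∧ (n : ℤ) ≤ q' ∧ (n : ℤ) ≤ q - q' + 1 ∧ (n : ℤ) + 1 ≤ q := by
  intro n
  induction n with
  | zero =>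
    intro p p' q q' he
    simp only [contin, Prod.mk.injEq, zero_mul, one_mul, zero_add, add_zero] at he
    have : 1 ≤ digit x 1 := one_le_digit hx 0
    omega
  | succ n ih =>
    intro p p' q q' he
    obtain ⟨r, r', s, s', hr⟩ : ∃ r r' s s' : ℤ, contin x (n + 2) = (r, r', s, s') :=
      ⟨_, _, _, _, rfl⟩
    obtain ⟨b1, b2, b3, b4⟩ := ih hr
    rw [contin, hr] at he
    simp only [Prod.mk.injEq] at he
    obtain ⟨rfl, rfl, rfl, rfl⟩ := he
    have hd := one_le_digit hx (n + 1)
    have := mul_le_mul_of_nonneg_left hd (by omega : (0 : ℤ) ≤ s)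
    push_cast
    exact ⟨by omega, b4, by linarith, by linarith⟩

/-- The errors of the continuants are at most one. -/
theorem abs_error_le {x : ℝ} (hx : Irrational x) {n : ℕ} {p p' q q' : ℤ}
    (he : contin x (n + 1) = (p, p', q, q')) : |x * q - p| ≤ 1 ∧ |x * q' - p'| ≤ 1 := by
  obtain ⟨p₀, p₀', q₀, q₀', he', hrel, hdet, hq', hq⟩ := contin_spec hx (n + 1)
  rw [he, Prod.mk.injEq, Prod.mk.injEq, Prod.mk.injEq] at he'
  obtain ⟨rfl, rfl, rfl, rfl⟩ := he'
  have hu := one_lt_cq hx n
  obtain ⟨hq0, hqq⟩ := hq.resolve_left n.succ_ne_zero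
  have h1 : (1 : ℝ) ≤ q := by exact_mod_cast hq0
  have h2 : (0 : ℝ) ≤ q' := by exact_mod_cast hq'
  have hdet' : |(p : ℝ) * q' - p' * q| = 1 := by exact_mod_cast hdet
  have hden : cq x (n + 1) ≤ (q : ℝ) * cq x (n + 1) + q' := by nlinarith
  have hA : |x * q - p| * ((q : ℝ) * cq x (n + 1) + q') = 1 := by
    rw [show |x * q - p| * ((q : ℝ) * cq x (n + 1) + q') =
        |(x * q - p) * ((q : ℝ) * cq x (n + 1) + q')| by
      rw [abs_mul, abs_of_pos (show (0 : ℝ) < (q : ℝ) * cq x (n + 1) + q' by linarith)],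
      ← hdet', ← abs_neg]
    congr 1
    linear_combination -(q : ℝ) * hrel
  have hC : |x * q' - p'| = cq x (n + 1) * |x * q - p| := by
    rw [show cq x (n + 1) * |x * q - p| = |cq x (n + 1) * (x * q - p)| by
      rw [abs_mul, abs_of_pos (zero_lt_one.trans hu)], ← abs_neg]
    congr 1
    linear_combination -hrel
  have hX := abs_nonneg (x * q - p)
  constructor <;> nlinarith

/-- **Serret's theorem.** -/
theorem serret {x y : ℝ} (hx : Irrational x) (hy : Irrational y) :
    (∃ m n, cq x m = cq y n) ↔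
      ∃ a b c e : ℤ, |a * e - b * c| = 1 ∧ y * (c * x + e) = a * x + b := by
  constructor
  · rintro ⟨m, n, h⟩
    obtain ⟨p, p', q, q', -, hrel, hdet, -, -⟩ := contin_spec hx m
    obtain ⟨P, P', Q, Q', -, hY, hdetY, -, -⟩ := contin_spec hy n
    rw [← h] at hY
    refine ⟨P' * q - P * q', P * p' - P' * p, Q' * q - Q * q', Q * p' - Q' * p, ?_, ?_⟩
    · rw [show (P' * q - P * q') * (Q * p' - Q' * p) - (P * p' - P' * p) * (Q' * q - Q * q') =
        (P * Q' - P' * Q) * (p * q' - p' * q) by ring, abs_mul, hdet, hdetY, mul_one]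
    · push_cast
      linear_combination ((q : ℝ) * x - p) * hY - ((y : ℝ) * Q - P) * hrel
  · rintro ⟨a, b, c, e, hdet, h⟩
    have key : ∀ a b c e : ℤ, |a * e - b * c| = 1 → y * (c * x + e) = a * x + b →
        0 < (c : ℝ) * x + e → ∃ m n, cq x m = cq y n := by
      intro a b c e hdet h hpos
      obtain ⟨N, hN⟩ := exists_nat_gt ((2 * |(c : ℝ)| + 1) / (c * x + e))
      rw [div_lt_iff₀ hpos] at hN
      obtain ⟨p, p', q, q', he, hrel, hd, -, -⟩ := contin_spec hx (N + 1 + 2)
      obtain ⟨-, g2, g3, -⟩ := contin_growth hx (N + 1) he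
      obtain ⟨e1, e2⟩ := abs_error_le hx he
      have g2' : (N : ℝ) + 1 ≤ q' := by exact_mod_cast g2
      have g3' : (N : ℝ) + 1 ≤ q - q' + 1 := by exact_mod_cast g3
      have hc1 : |(c : ℝ) * (x * q - p)| ≤ |(c : ℝ)| := by
        rw [abs_mul]
        exact mul_le_of_le_one_right (abs_nonneg _) e1
      have hc2 : |(c : ℝ) * (x * q' - p')| ≤ |(c : ℝ)| := by
        rw [abs_mul]
        exact mul_le_of_le_one_right (abs_nonneg _) e2
      obtain ⟨u1, u2⟩ := abs_le.1 hc1
      obtain ⟨v1, v2⟩ := abs_le.1 hc2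
      have hQ' : (0 : ℝ) < ((c * p' + e * q' : ℤ) : ℝ) := by
        push_cast
        nlinarith [mul_le_mul_of_nonneg_right g2' hpos.le]
      have hQQ : ((c * p' + e * q' : ℤ) : ℝ) < ((c * p + e * q : ℤ) : ℝ) := by
        push_cast
        nlinarith [mul_le_mul_of_nonneg_right g3' hpos.le]
      obtain ⟨j, -, hj, -⟩ := exists_index (ξ := y) ((c * p + e * q).toNat + 1)
        (P := a * p + b * q) (P' := a * p' + b * q') (Q := c * p + e * q)
        (Q' := c * p' + e * q') (by omega) (one_lt_cq hx (N + 2))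
        (by
          push_cast
          linear_combination ((q : ℝ) * cq x (N + 1 + 2) + q') * h +
            ((a : ℝ) - y * c) * hrel)
        (by
          rw [show (a * p + b * q) * (c * p' + e * q') - (a * p' + b * q') * (c * p + e * q) =
            (a * e - b * c) * (p * q' - p' * q) by ring, abs_mul, hdet, hd, mul_one])
        (Or.inl ⟨by exact_mod_cast hQ', by exact_mod_cast hQQ⟩)
      exact ⟨N + 1 + 2, j, hj.symm⟩
    rcases lt_trichotomy ((c : ℝ) * x + e) 0 with hneg | h0 | hpos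
    · refine key (-a) (-b) (-c) (-e) (by rw [← hdet]; ring_nf) ?_ ?_
      · push_cast
        linear_combination -h
      · push_cast
        linarith
    · exfalso
      rcases eq_or_ne c 0 with rfl | hc
      · have : (e : ℝ) = 0 := by simpa using h0
        simp [Int.cast_eq_zero.1 this] at hdet
      · refine hx.ne_rational (-e) c ?_
        rw [eq_div_iff (Int.cast_ne_zero.2 hc), Int.cast_neg]
        linarith
    · exact key a b c e hdet h hpos

theorem cq_eq_iff_digit {x y : ℝ} (hx : Irrational x) (hy : Irrational y) (m n : ℕ) :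
    cq x m = cq y n ↔ ∀ k, digit x (m + k) = digit y (n + k) := by
  refine ⟨fun h k => by rw [digit, digit, cq_add, cq_add, h], fun h => ?_⟩
  refine eq_of_digit_eq (irrational_cq hx m) (irrational_cq hy n) fun k => ?_
  rw [digit, digit, ← cq_add, ← cq_add]
  exact h k

end FA.PeriodicFractions

end
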