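import Fermat.Agent.PeriodicFractions.Lagrange
import Fermat.Agent.PeriodicFractions.Serret
import Mathlib.Algebra.ContinuedFractions.ContinuantsRecurrence

/-!
# The continued fraction of `√d`

`⌊√d⌋ + √d` is reduced, so the fraction of `√d` is periodic from the first partial quotient; the
period is symmetric and ends in `2 ⌊√d⌋`. The positive solutions of `x² - d y² = ± 1` are the
convergents at the multiples of the period, so `x² - d y² = -1` is solvable iff the period is odd.
-/

set_option autoImplicit false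

noncomputable section

open GenContFract

namespace FA.PeriodicFractions

/-- `⌊√d⌋ + √d`. -/
def shifted (d : ℕ) : ℝ := ((Nat.sqrt d : ℤ) : ℝ) + √(d : ℝ)

variable {d : ℕ}

theorem sqrt_facts (hd : ¬IsSquare d) : 1 ≤ (Nat.sqrt d : ℤ) ∧
    (Nat.sqrt d : ℤ) ^ 2 < d ∧ (d : ℤ) < ((Nat.sqrt d : ℤ) + 1) ^ 2 ∧
    ((Nat.sqrt d : ℤ) : ℝ) < √(d : ℝ) ∧ √(d : ℝ) < (Nat.sqrt d : ℤ) + 1 := by
  have h1 : Nat.sqrt d * Nat.sqrt d ≠ d := fun h => hd ⟨_, h.symm⟩
  have h2 : Nat.sqrt d * Nat.sqrt d < d := (Nat.sqrt_le d).lt_of_ne h1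
  have h3 : d < (Nat.sqrt d + 1) * (Nat.sqrt d + 1) := Nat.lt_succ_sqrt d
  have h4 : 1 ≤ Nat.sqrt d := Nat.sqrt_pos.2 (by omega)
  rw [sq, sq]
  refine ⟨by exact_mod_cast h4, by exact_mod_cast h2, by exact_mod_cast h3, ?_, ?_⟩
  · push_cast
    rw [Real.lt_sqrt (Nat.cast_nonneg _), sq]
    exact_mod_cast h2
  · push_cast
    rw [Real.sqrt_lt' (by positivity), sq]
    exact_mod_cast h3

theorem eq_zero_of_mul_sqrt (hd : ¬IsSquare d) {A B : ℤ} (h : (A : ℝ) * √(d : ℝ) = B) :
    A = 0 ∧ B = 0 := by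
  rcases eq_or_ne A 0 with rfl | hA
  · exact ⟨rfl, by simpa using h.symm⟩
  refine absurd ?_ ((irrational_sqrt_natCast_iff.2 hd).ne_rational B A)
  rw [eq_div_iff (Int.cast_ne_zero.2 hA), mul_comm, h]

theorem irrational_shifted (hd : ¬IsSquare d) : Irrational (shifted d) :=
  (irrational_sqrt_natCast_iff.2 hd).intCast_add _

theorem cq_shifted_succ (n : ℕ) : cq (shifted d) (n + 1) = cq √(d : ℝ) (n + 1) := by
  rw [cq_succ', cq_succ', shifted, Int.fract_intCast_add]

theorem digit_shifted_succ (n : ℕ) : digit (shifted d) (n + 1) = digit √(d : ℝ) (n + 1) := by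
  rw [digit, digit, cq_shifted_succ]

theorem digit_shifted_zero (hd : ¬IsSquare d) : digit (shifted d) 0 = 2 * (Nat.sqrt d : ℤ) := by
  obtain ⟨-, -, -, h1, h2⟩ := sqrt_facts hd
  rw [digit, cq, Int.floor_eq_iff, shifted, Int.cast_mul, Int.cast_ofNat]
  constructor <;> linarith

theorem cq_shifted_one (hd : ¬IsSquare d) :
    cq (shifted d) 1 = (√(d : ℝ) - (Nat.sqrt d : ℤ))⁻¹ := by
  have h : ⌊shifted d⌋ = 2 * (Nat.sqrt d : ℤ) := digit_shifted_zero hd
  rw [cq, cq, Int.fract, h, shifted, Int.cast_mul, Int.cast_ofNat]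
  congr 1
  ring

theorem isConjugate_shifted (hd : ¬IsSquare d) :
    IsConjugate (shifted d) ((Nat.sqrt d : ℤ) - √(d : ℝ)) ∧
      -1 < ((Nat.sqrt d : ℤ) : ℝ) - √(d : ℝ) ∧ ((Nat.sqrt d : ℤ) : ℝ) - √(d : ℝ) < 0 ∧
      1 < shifted d := by
  obtain ⟨h0, -, -, h1, h2⟩ := sqrt_facts hd
  have h0' : (1 : ℝ) ≤ (Nat.sqrt d : ℤ) := by exact_mod_cast h0
  refine ⟨⟨1, -2 * (Nat.sqrt d : ℤ), (Nat.sqrt d : ℤ) ^ 2 - d, one_ne_zero, ?_, ?_⟩,
    by linarith, by linarith, by rw [shifted]; linarith⟩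
  · have := Real.sq_sqrt (Nat.cast_nonneg (α := ℝ) d)
    rw [shifted]
    push_cast
    linear_combination this
  · rw [shifted]
    push_cast
    ring

/-- The period. -/
theorem exists_period (hd : ¬IsSquare d) :
    ∃ k, 0 < k ∧ ∀ m, cq (shifted d) m = shifted d ↔ k ∣ m := by
  classical
  have hx := irrational_shifted hd
  obtain ⟨hc, h1, h2, h3⟩ := isConjugate_shifted hd
  obtain ⟨K, hK, h⟩ := (purely_periodic_iff hx).2 ⟨_, hc, h3, h1, h2⟩
  have hex : ∃ k, 0 < k ∧ cq (shifted d) k = shifted d := by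
    have := cq_periodic hx (N := 0) (k := K) fun n _ => h n
    exact ⟨K, hK, by rwa [zero_add] at this⟩
  obtain ⟨hk, hper⟩ := Nat.find_spec hex
  have hmul : ∀ j r, cq (shifted d) (Nat.find hex * j + r) = cq (shifted d) r := fun j r => by
    induction j with
    | zero => simp
    | succ j ih =>
      rw [show Nat.find hex * (j + 1) + r = Nat.find hex + (Nat.find hex * j + r) by ring,
        cq_add, hper, ih]
  refine ⟨Nat.find hex, hk, fun m => ⟨fun hm => ?_, fun ⟨j, hj⟩ => ?_⟩⟩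
  · rw [← Nat.div_add_mod m (Nat.find hex), hmul] at hm
    by_contra hndvd
    exact Nat.find_min hex (Nat.mod_lt m hk)
      ⟨Nat.pos_of_ne_zero fun h0 => hndvd (Nat.dvd_of_mod_eq_zero h0), hm⟩
  · have := hmul j 0
    rwa [add_zero, ← hj] at this

theorem periodic_from_one_iff (hd : ¬IsSquare d) {k : ℕ} (hk : 0 < k)
    (hper : ∀ m, cq (shifted d) m = shifted d ↔ k ∣ m) (K : ℕ) :
    (∀ n, digit √(d : ℝ) (n + 1 + K) = digit √(d : ℝ) (n + 1)) ↔ k ∣ K := by
  refine ⟨fun h => ?_, fun h n => ?_⟩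
  · have hK : cq (shifted d) (k + K) = cq (shifted d) k := by
      refine cq_periodic (irrational_shifted hd) fun n hn => ?_
      obtain ⟨m, rfl⟩ : ∃ m, n = m + 1 := ⟨n - 1, by omega⟩
      rw [show m + 1 + K = (m + K) + 1 by ring, digit_shifted_succ, digit_shifted_succ,
        show m + K + 1 = m + 1 + K by ring, h m]
    rw [(hper k).2 dvd_rfl, hper] at hK
    exact (Nat.dvd_add_right dvd_rfl).1 hK
  · have h0 : cq (shifted d) (0 + K) = cq (shifted d) 0 := by
      rw [zero_add, (hper K).2 h, cq]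
    have := digit_periodic h0 (n + 1) (Nat.zero_le _)
    rwa [show n + 1 + K = n + K + 1 by ring, digit_shifted_succ, digit_shifted_succ,
      show n + K + 1 = n + 1 + K by ring] at this

/-- **The period is symmetric.** -/
theorem palindrome (hd : ¬IsSquare d) {k : ℕ} (hk : cq (shifted d) k = shifted d) (i n : ℕ)
    (hin : n + i + 1 = k) : digit (shifted d) (i + 1) = digit (shifted d) n := by
  have hx := irrational_shifted hd
  obtain ⟨hc, c1, c2, c3⟩ := isConjugate_shifted hd
  let H : ℕ → Prop := fun i => ∀ n w, n + i = k → IsConjugate (cq (shifted d) n) w → -1 < w →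
    w < 0 → cq (cq (shifted d) 1) i = -1 / w
  have step : ∀ i, H i → ∀ n w, n + i + 1 = k → IsConjugate (cq (shifted d) n) w → -1 < w →
      w < 0 → digit (cq (shifted d) 1) i = digit (shifted d) n ∧
        cq (cq (shifted d) 1) (i + 1) = -1 / w := fun i hi n w hn hw w1 w2 => by
    obtain ⟨hs, hne⟩ := isConjugate_step (irrational_cq hx n) hw (digit (shifted d) n)
    obtain ⟨w', hw', a1, a2, -⟩ := reduced_cq hx hc c3 c1 c2 (n + 1)
    obtain rfl := isConjugate_unique (irrational_cq hx (n + 1)) hw' hs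
    refine cq_step (by rw [lt_div_iff_of_neg w2]; linarith) ?_
    rw [hi (n + 1) _ (by omega) hw' a1 a2, div_inv_eq_mul, one_div_div]
    ring
  have all : ∀ i, H i := by
    intro i
    induction i with
    | zero =>
      intro n w hn hw _ _
      rw [add_zero] at hn
      rw [hn, hk] at hw
      rw [isConjugate_unique hx hw hc, cq, cq_shifted_one hd, neg_div, ← div_neg, neg_sub, one_div]
    | succ i ih => exact fun n w hn hw w1 w2 => (step i ih n w (by omega) hw w1 w2).2
  obtain ⟨w, hw, w1, w2, -⟩ := reduced_cq hx hc c3 c1 c2 n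
  rw [← (step i (all i) n w hin hw w1 w2).1, digit, digit, ← cq_add, add_comm i 1]

/-- At a multiple of the period the convergent solves Pell's equation. -/
theorem pell_of_cq (hd : ¬IsSquare d) {n : ℕ} (hn : 0 < n)
    (h : cq √(d : ℝ) n = shifted d) {p p' q q' : ℤ} (he : contin √(d : ℝ) n = (p, p', q, q')) :
    p ^ 2 - d * q ^ 2 = (-1) ^ n ∧ 0 < p ∧ 0 < q := by
  obtain ⟨p₀, p₀', q₀, q₀', he', hrel, -, hq', hq⟩ :=
    contin_spec (irrational_sqrt_natCast_iff.2 hd) n
  rw [he, Prod.mk.injEq, Prod.mk.injEq, Prod.mk.injEq] at he'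
  obtain ⟨rfl, rfl, rfl, rfl⟩ := he'
  rw [h, shifted] at hrel
  have hs := Real.sq_sqrt (Nat.cast_nonneg (α := ℝ) d)
  obtain ⟨e1, e2⟩ := eq_zero_of_mul_sqrt hd (A := q * (Nat.sqrt d : ℤ) + q' - p)
    (B := p * (Nat.sqrt d : ℤ) + p' - q * d) (by push_cast at hrel ⊢; linear_combination hrel -
      (q : ℝ) * hs)
  obtain ⟨hq0, -⟩ := hq.resolve_left hn.ne'
  have ha := (sqrt_facts hd).1
  refine ⟨?_, by nlinarith, hq0⟩
  rw [← contin_det √(d : ℝ) n he]
  linear_combination q * e2 - p * e1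

/-- **A solution of Pell's equation is a convergent at a multiple of the period.** -/
theorem cq_of_pell (hd : ¬IsSquare d) {x y : ℤ} (hx : 0 < x) (hy : 0 < y)
    (h : x ^ 2 - d * y ^ 2 = 1 ∨ x ^ 2 - d * y ^ 2 = -1) :
    ∃ n p' q', 0 < n ∧ cq √(d : ℝ) n = shifted d ∧
      contin √(d : ℝ) n = (x, p', y, q') := by
  obtain ⟨ha, hlt, hgt, -, -⟩ := sqrt_facts hd
  set a : ℤ := (Nat.sqrt d : ℤ) with ha'
  have hy2 : 1 ≤ y ^ 2 := one_le_pow₀ hy
  have hle1 : a * y ≤ x := by
    by_contra! hlt'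
    rcases h with h | h <;> nlinarith
  have hle2 : x ≤ (a + 1) * y := by
    by_contra! hlt'
    have hsq := mul_le_mul (Int.add_one_le_iff.2 hlt') (Int.add_one_le_iff.2 hlt')
      (by positivity) hx.le
    have := mul_le_mul_of_nonneg_right (Int.add_one_le_iff.2 hgt) (sq_nonneg y)
    rcases h with h | h <;> nlinarith
  have hy1 : x = a * y ∨ x = (a + 1) * y → y = 1 := fun he => by
    have : y ^ 2 ≤ 1 := by rcases he with rfl | rfl <;> rcases h with h | h <;> nlinarith
    nlinarith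
  obtain ⟨n, hn, hcq, hc⟩ := exists_index (ξ := √(d : ℝ)) (y.toNat + 1) (u := shifted d)
    (P := x) (P' := y * d - x * a) (Q := y) (Q' := x - y * a) (by omega)
    (isConjugate_shifted hd).2.2.2
    (by
      have hs := Real.sq_sqrt (Nat.cast_nonneg (α := ℝ) d)
      rw [shifted, ← ha']
      push_cast
      linear_combination (y : ℝ) * hs)
    (by
      rw [show x * (x - y * a) - (y * d - x * a) * y = x ^ 2 - d * y ^ 2 by ring]
      rcases h with h | h <;> simp [h])
    (by
      rcases hle1.eq_or_lt with he | h1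
      · obtain rfl := hy1 (Or.inl he.symm)
        obtain rfl : x = a := by linarith
        refine Or.inr (Or.inr ⟨rfl, by ring, ?_⟩)
        rcases h with h | h <;> nlinarith
      · rcases hle2.eq_or_lt with he | h2
        · obtain rfl := hy1 (Or.inr he)
          obtain rfl : x = a + 1 := by linarith
          refine Or.inr (Or.inl ⟨rfl, by ring, ?_⟩)
          rcases h with h | h <;> nlinarith
        · exact Or.inl ⟨by linarith, by linarith⟩)
  exact ⟨n, _, _, hn, hcq, hc⟩

/-- **Negative Pell.** -/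
theorem negativePell_iff_odd (hd : ¬IsSquare d) {k : ℕ} (hk : 0 < k)
    (hper : ∀ m, cq (shifted d) m = shifted d ↔ k ∣ m) :
    (∃ x y : ℤ, x ^ 2 - d * y ^ 2 = -1) ↔ Odd k := by
  obtain ⟨j, rfl⟩ : ∃ j, k = j + 1 := ⟨k - 1, by omega⟩
  constructor
  · rintro ⟨x, y, h⟩
    rw [← sq_abs x, ← sq_abs y] at h
    obtain ⟨ha, hlt, -, -, -⟩ := sqrt_facts hd
    have hy : 0 < |y| := by
      refine (abs_nonneg y).lt_of_ne fun h0 => ?_
      rw [← h0] at h
      nlinarith [sq_nonneg |x|]
    have hx : 0 < |x| := by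
      refine (abs_nonneg x).lt_of_ne fun h0 => ?_
      rw [← h0] at h
      have : (2 : ℤ) ≤ d := by nlinarith
      nlinarith [one_le_pow₀ (n := 2) (Int.add_one_le_iff.2 hy)]
    obtain ⟨n, p', q', hn, hcq, hc⟩ := cq_of_pell hd hx hy (Or.inr h)
    obtain ⟨m, rfl⟩ : ∃ m, n = m + 1 := ⟨n - 1, by omega⟩
    rw [← cq_shifted_succ, hper] at hcq
    have e := (pell_of_cq hd m.succ_pos (by rw [← cq_shifted_succ, (hper _).2 hcq]) hc).1
    rw [h] at e
    by_contra hodd
    rw [Nat.not_odd_iff_even, even_iff_two_dvd] at hodd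
    rw [(even_iff_two_dvd.2 (hodd.trans hcq)).neg_one_pow] at e
    omega
  · intro hodd
    obtain ⟨p, p', q, q', hc, -⟩ := contin_spec (irrational_sqrt_natCast_iff.2 hd) (j + 1)
    refine ⟨p, q, ?_⟩
    rw [(pell_of_cq hd j.succ_pos (by rw [← cq_shifted_succ, (hper _).2 dvd_rfl]) hc).1,
      hodd.neg_one_pow]

theorem contin_den_mono {x : ℝ} (hx : Irrational x) (n m : ℕ) :
    (contin x (n + 1)).2.2.1 ≤ (contin x (n + 1 + m)).2.2.1 := by
  induction m with
  | zero => rfl
  | succ m ih =>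
    obtain ⟨p, p', q, q', he, -, -, hq', hq⟩ := contin_spec hx (n + 1 + m)
    obtain ⟨hq0, -⟩ := hq.resolve_left (by omega)
    refine ih.trans ?_
    rw [← add_assoc, contin, he]
    have := mul_le_mul_of_nonneg_left
      (show 1 ≤ digit x (n + 1 + m) by
        rw [show n + 1 + m = n + m + 1 by ring]; exact one_le_digit hx _) hq0.le
    simp only
    linarith

/-- The continuants are Mathlib's numerators and denominators. -/
theorem nums_dens {x : ℝ} (hx : Irrational x) (n : ℕ) :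
    (GenContFract.of x).nums n = ((contin x (n + 1)).1 : ℝ) ∧
      (GenContFract.of x).dens n = ((contin x (n + 1)).2.2.1 : ℝ) := by
  suffices ∀ n, ((GenContFract.of x).nums n = ((contin x (n + 1)).1 : ℝ) ∧
      (GenContFract.of x).dens n = ((contin x (n + 1)).2.2.1 : ℝ)) ∧
      ((GenContFract.of x).nums (n + 1) = ((contin x (n + 2)).1 : ℝ) ∧
      (GenContFract.of x).dens (n + 1) = ((contin x (n + 2)).2.2.1 : ℝ)) from (this n).1
  intro n
  induction n with
  | zero =>
    rw [GenContFract.zeroth_num_eq_h, GenContFract.zeroth_den_eq_one, digit_zero,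
      GenContFract.first_num_eq (get?_of hx 0), GenContFract.first_den_eq (get?_of hx 0),
      digit_zero]
    simp [contin, mul_comm]
  | succ n ih =>
    refine ⟨ih.2, ?_, ?_⟩
    · rw [GenContFract.nums_recurrence (get?_of hx (n + 1)) ih.1.1 ih.2.1]
      simp only [contin]
      push_cast
      ring
    · rw [GenContFract.dens_recurrence (get?_of hx (n + 1)) ih.1.2 ih.2.2]
      simp only [contin]
      push_cast
      ring

end FA.PeriodicFractions

end
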