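import Fermat.Agent.PeriodicFractions.Basic
import Mathlib.Data.Set.Finite.Basic
import Mathlib.RingTheory.Polynomial.Basic
import Mathlib.Algebra.Polynomial.Roots

/-!
# The theorems of Lagrange and Galois

The complete quotients of a quadratic irrational are roots of quadratics of one discriminant with
bounded first and last coefficient, so finitely many. The conjugates of reduced numbers determine
the preceding digits, so a period of a reduced number starts at once.
-/

set_option autoImplicit false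

noncomputable section

open Polynomial

namespace FA.PeriodicFractions

/-- A real quadratic irrational. -/
def IsQuadraticIrrational (x : ℝ) : Prop :=
  Irrational x ∧ ∃ a b c : ℤ, a ≠ 0 ∧ (a : ℝ) * x ^ 2 + b * x + c = 0

/-- `v` is the conjugate of `u`. -/
def IsConjugate (u v : ℝ) : Prop :=
  ∃ a b c : ℤ, a ≠ 0 ∧ (a : ℝ) * u ^ 2 + b * u + c = 0 ∧ (a : ℝ) * (u + v) = -b

theorem form_ne_zero {x : ℝ} (hx : Irrational x) {a b c : ℤ} (ha : a ≠ 0)
    (h : (a : ℝ) * x ^ 2 + b * x + c = 0) {p q : ℤ} (hpq : p ≠ 0 ∨ q ≠ 0) :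
    a * p ^ 2 + b * p * q + c * q ^ 2 ≠ 0 := fun h0 => by
  rcases eq_or_ne q 0 with rfl | hq
  · simp [ha] at h0
    simp [h0] at hpq
  have hq' : (q : ℝ) ≠ 0 := Int.cast_ne_zero.2 hq
  have ha' : (a : ℝ) ≠ 0 := Int.cast_ne_zero.2 ha
  have h1 : (a : ℝ) * (p : ℝ) ^ 2 + b * p * q + c * (q : ℝ) ^ 2 = 0 := by exact_mod_cast h0
  have h2 : ((q : ℝ) * x - p) * (a * (q * x + p) + b * q) = 0 := by
    linear_combination (q : ℝ) ^ 2 * h - h1
  rcases mul_eq_zero.1 h2 with h3 | h3
  · refine hx.ne_rational p q ?_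
    rw [eq_div_iff hq']
    linarith
  · refine hx.ne_rational (-(a * p + b * q)) (a * q) ?_
    push_cast
    rw [eq_div_iff (mul_ne_zero ha' hq')]
    linarith

theorem isConjugate_unique {u v w : ℝ} (hu : Irrational u) (hv : IsConjugate u v)
    (hw : IsConjugate u w) : v = w := by
  obtain ⟨a, b, c, ha, h1, h2⟩ := hv
  obtain ⟨a', b', c', ha', h1', h2'⟩ := hw
  have e : ((a' * b - a * b' : ℤ) : ℝ) * u + ((a' * c - a * c' : ℤ) : ℝ) = 0 := by
    push_cast
    linear_combination (a' : ℝ) * h1 - (a : ℝ) * h1'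
  have h0 : a' * b - a * b' = 0 := by
    by_contra h
    refine hu.ne_rational (-(a' * c - a * c')) (a' * b - a * b') ?_
    rw [eq_div_iff (Int.cast_ne_zero.2 h), Int.cast_neg]
    linarith
  have h0' : (a' : ℝ) * b = a * b' := by exact_mod_cast sub_eq_zero.1 h0
  refine mul_left_cancel₀ (mul_ne_zero (Int.cast_ne_zero.2 ha : (a : ℝ) ≠ 0)
    (Int.cast_ne_zero.2 ha' : (a' : ℝ) ≠ 0)) ?_
  linear_combination (a' : ℝ) * h2 - (a : ℝ) * h2' - h0'

/-- **Badly approximable.** -/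
theorem badly_approximable {x : ℝ} (hx : IsQuadraticIrrational x) :
    ∃ C : ℝ, 0 < C ∧ ∀ (p : ℤ) (q : ℕ), 0 < q → C / (q : ℝ) ^ 2 ≤ |x - p / q| := by
  obtain ⟨hirr, a, b, c, ha, h⟩ := hx
  obtain ⟨K, hK⟩ : ∃ K, K = |(a : ℝ)| * (2 * |x| + 1) + |(b : ℝ)| + 1 := ⟨_, rfl⟩
  have hK1 : 1 ≤ K := by
    have : 0 ≤ |(a : ℝ)| * (2 * |x| + 1) := by positivity
    linarith [abs_nonneg (b : ℝ)]
  refine ⟨1 / K, by positivity, fun p q hq => ?_⟩
  have hq' : (1 : ℝ) ≤ q := by exact_mod_cast hq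
  rcases le_total 1 |x - p / q| with hge | hle
  · refine le_trans ?_ hge
    rw [div_div, div_le_one (by positivity)]
    nlinarith
  have hform : (1 : ℝ) ≤ |((a * p ^ 2 + b * p * q + c * (q : ℤ) ^ 2 : ℤ) : ℝ)| := by
    exact_mod_cast Int.one_le_abs (form_ne_zero hirr ha h (p := p) (q := (q : ℤ))
      (Or.inr (by exact_mod_cast hq.ne')))
  have e : ((a * p ^ 2 + b * p * q + c * (q : ℤ) ^ 2 : ℤ) : ℝ) =
      (q : ℝ) ^ 2 * ((p / q - x) * (a * (x + p / q) + b)) := by
    push_cast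
    field_simp
    linear_combination (q : ℝ) ^ 2 * h
  rw [e, abs_mul, abs_mul, abs_of_nonneg (sq_nonneg _), abs_sub_comm _ x] at hform
  have hb : |(a : ℝ) * (x + p / q) + b| ≤ K := by
    refine (abs_add_le _ _).trans ?_
    rw [abs_mul, hK]
    have : |x + p / q| ≤ 2 * |x| + 1 := by
      have h1 := abs_add_le (2 * x) (p / q - x)
      rw [abs_mul, abs_two, abs_sub_comm, show 2 * x + (p / q - x) = x + p / q by ring] at h1
      linarith
    nlinarith [mul_le_mul_of_nonneg_left this (abs_nonneg (a : ℝ))]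
  rw [div_div, div_le_iff₀ (by positivity)]
  nlinarith [mul_le_mul_of_nonneg_left hb
    (mul_nonneg (sq_nonneg (q : ℝ)) (abs_nonneg (x - p / q)))]

/-- A periodic quotient is quadratic, and so is the number. -/
theorem quadratic_of_periodic {x : ℝ} (hx : Irrational x) {N k : ℕ} (hk : 0 < k)
    (h : cq x (N + k) = cq x N) : IsQuadraticIrrational x := by
  obtain ⟨P, P', Q, Q', -, hX, hdet, -, -⟩ := contin_spec hx N
  obtain ⟨p, p', q, q', -, hY, -, -, hq⟩ := contin_spec (irrational_cq hx N) k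
  rw [← cq_add, h] at hY
  obtain ⟨hq, -⟩ := hq.resolve_left hk.ne'
  refine ⟨hx, q * Q' ^ 2 + (q' - p) * (-Q') * Q + -p' * Q ^ 2,
    -2 * q * P' * Q' + (q' - p) * (P' * Q + P * Q') + 2 * p' * P * Q,
    q * P' ^ 2 - (q' - p) * P' * P - p' * P ^ 2, ?_, ?_⟩
  · have hne : -Q' ≠ 0 ∨ Q ≠ 0 := by
      by_contra! h0
      simp only [neg_eq_zero] at h0
      rw [h0.1, h0.2] at hdet
      simp at hdet
    have hy : (q : ℝ) * cq x N ^ 2 + ((q' - p : ℤ) : ℝ) * cq x N + ((-p' : ℤ) : ℝ) = 0 := by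
      push_cast
      linear_combination hY
    simpa [neg_sq] using form_ne_zero (irrational_cq hx N) hq.ne' hy hne
  · push_cast
    linear_combination (Q * x - P : ℝ) ^ 2 * hY -
      ((q : ℝ) * ((Q * x - P) * cq x N - (Q' * x - P')) + (q' - p) * (Q * x - P)) * hX

/-- The form is small at good approximations. -/
theorem abs_form_le {x : ℝ} {a b c : ℤ} (h : (a : ℝ) * x ^ 2 + b * x + c = 0) {u v : ℤ}
    (hv : 0 ≤ v) (h1 : |x * v - u| * v ≤ 1) (h0 : |x * v - u| ≤ 1) :
    |((a * u ^ 2 + b * u * v + c * v ^ 2 : ℤ) : ℝ)| ≤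
      |(a : ℝ)| * (2 * |x| + 1) + |(b : ℝ)| + |(c : ℝ)| := by
  rcases hv.eq_or_lt with rfl | hv1
  · push_cast at h0 ⊢
    rw [show (a : ℝ) * u ^ 2 + b * u * 0 + c * 0 = a * u ^ 2 by ring, abs_mul, abs_pow]
    rw [mul_zero, zero_sub, abs_neg] at h0
    have := mul_le_mul_of_nonneg_left (pow_le_one₀ (n := 2) (abs_nonneg (u : ℝ)) h0)
      (abs_nonneg (a : ℝ))
    linarith [mul_nonneg (abs_nonneg (a : ℝ)) (abs_nonneg x), abs_nonneg (b : ℝ),
      abs_nonneg (c : ℝ), abs_nonneg (a : ℝ)]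
  have hv1' : (1 : ℝ) ≤ v := by exact_mod_cast hv1
  have e : ((a * u ^ 2 + b * u * v + c * v ^ 2 : ℤ) : ℝ) =
      ((u : ℝ) - x * v) * (a * (u + x * v) + b * v) := by
    push_cast
    linear_combination (v : ℝ) ^ 2 * h
  rw [e, abs_mul, abs_sub_comm]
  have hb : |(a : ℝ) * (u + x * v) + b * v| ≤ (|(a : ℝ)| * (2 * |x| + 1) + |(b : ℝ)|) * v := by
    refine (abs_add_le _ _).trans ?_
    rw [abs_mul, abs_mul, abs_of_nonneg (zero_le_one.trans hv1'), add_mul]
    have : |(u : ℝ) + x * v| ≤ (2 * |x| + 1) * v := by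
      have h2 := abs_add_le (2 * (x * v)) (-(x * v - u))
      rw [abs_neg, abs_mul, abs_two, abs_mul, abs_of_nonneg (zero_le_one.trans hv1'),
        show 2 * (x * v) + -(x * v - u) = u + x * v by ring] at h2
      linarith
    linarith [mul_le_mul_of_nonneg_left this (abs_nonneg (a : ℝ))]
  refine (mul_le_mul_of_nonneg_left hb (abs_nonneg _)).trans ?_
  have hK : 0 ≤ |(a : ℝ)| * (2 * |x| + 1) + |(b : ℝ)| := by positivity
  linarith [mul_le_mul_of_nonneg_left h1 hK, abs_nonneg (c : ℝ)]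

/-- The quadratics of the complete quotients are bounded. -/
theorem exists_coeff_bound {x : ℝ} (hirr : Irrational x) {a b c : ℤ} (ha : a ≠ 0)
    (h : (a : ℝ) * x ^ 2 + b * x + c = 0) {M : ℕ}
    (hM : |(a : ℝ)| * (2 * |x| + 1) + |(b : ℝ)| + |(c : ℝ)| ≤ M) (n : ℕ) :
    ∃ A B C : ℤ, A ≠ 0 ∧ |A| ≤ |b ^ 2 - 4 * a * c| + 4 * M * M + M ∧
      |B| ≤ |b ^ 2 - 4 * a * c| + 4 * M * M + M ∧ |C| ≤ |b ^ 2 - 4 * a * c| + 4 * M * M + M ∧
      (A : ℝ) * cq x n ^ 2 + B * cq x n + C = 0 := by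
  set D := b ^ 2 - 4 * a * c
  obtain ⟨p, p', q, q', he, hrel, hdet, hq'0, hq⟩ := contin_spec hirr n
  let f : ℤ → ℤ → ℤ := fun u v => a * u ^ 2 + b * u * v + c * v ^ 2
  have hsmall : ∀ u v : ℤ, 0 ≤ v → |x * v - u| * v ≤ 1 → |x * v - u| ≤ 1 →
      |f u v| ≤ M := fun u v hv h1 h0 =>
    Int.cast_le.1 ((le_of_eq_of_le Int.cast_abs (abs_form_le h hv h1 h0)).trans hM)
  have hdet' : |(p : ℝ) * q' - p' * q| = 1 := by exact_mod_cast hdet
  have hd2 : (p * q' - p' * q) ^ 2 = 1 := by rw [← sq_abs, hdet, one_pow]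
  refine ⟨f p q, 2 * a * p * p' + b * (p * q' + p' * q) + 2 * c * q * q', f p' q',
    form_ne_zero hirr ha h ?_, ?_⟩
  · by_contra! h0
    rw [h0.1, h0.2] at hdet
    simp at hdet
  rcases hq with rfl | ⟨hq0, hqq⟩
  · simp only [contin, Prod.mk.injEq] at he
    obtain ⟨rfl, rfl, rfl, rfl⟩ := he
    have hA : |a| ≤ M := Int.cast_le.1 ((show ((|a| : ℤ) : ℝ) ≤ _ by
      push_cast; nlinarith [mul_nonneg (abs_nonneg (a : ℝ)) (abs_nonneg x),
        abs_nonneg (b : ℝ), abs_nonneg (c : ℝ)]).trans hM)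
    have hB : |b| ≤ M := Int.cast_le.1 ((show ((|b| : ℤ) : ℝ) ≤ _ by
      push_cast; nlinarith [mul_nonneg (abs_nonneg (a : ℝ)) (abs_nonneg x),
        abs_nonneg (a : ℝ), abs_nonneg (c : ℝ)]).trans hM)
    have hC : |c| ≤ M := Int.cast_le.1 ((show ((|c| : ℤ) : ℝ) ≤ _ by
      push_cast; nlinarith [mul_nonneg (abs_nonneg (a : ℝ)) (abs_nonneg x),
        abs_nonneg (a : ℝ), abs_nonneg (b : ℝ)]).trans hM)
    have h4 : (0 : ℤ) ≤ 4 * M * M := by positivity
    have := abs_nonneg D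
    simp [f, cq]
    exact ⟨by linarith, by linarith, by linarith, h⟩
  have hn : 1 < cq x n ∨ n = 0 := by
    rcases n with _ | m
    · exact Or.inr rfl
    · exact Or.inl (one_lt_cq hirr m)
  have hy : 1 < cq x n := hn.resolve_right fun h0 => by
    subst h0
    simp only [contin, Prod.mk.injEq] at he
    omega
  have hq1 : (1 : ℝ) ≤ q := by exact_mod_cast hq0
  have hq'R : (0 : ℝ) ≤ q' := by exact_mod_cast hq'0
  have hqqR : (q' : ℝ) ≤ q := by exact_mod_cast hqq
  have hden : 0 < (q : ℝ) * cq x n + q' := by nlinarith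
  have hA1 : |x * q - p| * ((q : ℝ) * cq x n + q') = 1 := by
    rw [show |x * q - p| * ((q : ℝ) * cq x n + q') = |(x * q - p) * ((q : ℝ) * cq x n + q')| by
      rw [abs_mul, abs_of_pos hden], ← hdet', ← abs_neg]
    congr 1
    linear_combination -(q : ℝ) * hrel
  have hC1 : |x * q' - p'| = cq x n * |x * q - p| := by
    rw [show cq x n * |x * q - p| = |cq x n * (x * q - p)| by
      rw [abs_mul, abs_of_pos (zero_lt_one.trans hy)], ← abs_neg]
    congr 1
    linear_combination -hrel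
  have hX := abs_nonneg (x * q - p)
  have w1 : (0 : ℝ) ≤ |x * q - p| * ((q : ℝ) * cq x n + q' - q) :=
    mul_nonneg hX (by nlinarith)
  have w2 : (0 : ℝ) ≤ |x * q - p| * ((q : ℝ) * cq x n + q' - q' * cq x n) :=
    mul_nonneg hX (by nlinarith)
  have w3 : (0 : ℝ) ≤ |x * q - p| * ((q : ℝ) * cq x n + q' - cq x n) :=
    mul_nonneg hX (by nlinarith)
  have hA := hsmall p q (by omega) (by nlinarith) (by nlinarith)
  have hC := hsmall p' q' hq'0 (by rw [hC1]; nlinarith) (by rw [hC1]; nlinarith)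
  have hdisc : (2 * a * p * p' + b * (p * q' + p' * q) + 2 * c * q * q') ^ 2 =
      D + 4 * (f p q * f p' q') := by
    simp only [f, D]
    linear_combination (b ^ 2 - 4 * a * c) * hd2
  have hM0 : (0 : ℤ) ≤ M := Int.natCast_nonneg M
  have hAC : |f p q * f p' q'| ≤ M * M := by
    rw [abs_mul]
    exact mul_le_mul hA hC (abs_nonneg _) hM0
  refine ⟨by linarith [abs_nonneg D, mul_nonneg hM0 hM0], ?_,
    by linarith [abs_nonneg D, mul_nonneg hM0 hM0], ?_⟩
  · have hsq := Int.le_self_sq |2 * a * p * p' + b * (p * q' + p' * q) + 2 * c * q * q'|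
    rw [sq_abs, hdisc] at hsq
    linarith [le_abs_self D, le_abs_self (f p q * f p' q')]
  · simp only [f]
    push_cast
    linear_combination ((q : ℝ) * cq x n + q') ^ 2 * h -
      ((a : ℝ) * (x * ((q : ℝ) * cq x n + q') + ((p : ℝ) * cq x n + p')) +
        b * ((q : ℝ) * cq x n + q')) * hrel

/-- The real roots of the quadratics with coefficients in a range are finite in number. -/
theorem finite_roots (R : ℤ) : {y : ℝ | ∃ A B C : ℤ, A ≠ 0 ∧ |A| ≤ R ∧ |B| ≤ R ∧ |C| ≤ R ∧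
    (A : ℝ) * y ^ 2 + B * y + C = 0}.Finite := by
  have hfin : ((Finset.Icc (-R) R ×ˢ Finset.Icc (-R) R ×ˢ Finset.Icc (-R) R :
      Finset (ℤ × ℤ × ℤ)) : Set (ℤ × ℤ × ℤ)).Finite := Finset.finite_toSet _
  refine (hfin.biUnion (t := fun z => {y : ℝ | z.1 ≠ 0 ∧
    (z.1 : ℝ) * y ^ 2 + z.2.1 * y + z.2.2 = 0}) fun z _ => ?_).subset ?_
  · by_cases hA : z.1 = 0
    · simp [hA]
    have hne : C (z.1 : ℝ) * X ^ 2 + C (z.2.1 : ℝ) * X + C (z.2.2 : ℝ) ≠ 0 :=
      fun h0 => by
        simpa [hA, Polynomial.coeff_C, -map_intCast] using congrArg (fun P : ℝ[X] => P.coeff 2) h0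
    refine (Polynomial.finite_setOfPred_isRoot hne).subset fun y hy => ?_
    simpa [Polynomial.IsRoot] using hy.2
  · rintro y ⟨A, B, C', hA, h1, h2, h3, h4⟩
    refine Set.mem_biUnion (x := (A, B, C')) ?_ ⟨hA, h4⟩
    simp only [Finset.coe_product, Set.mem_prod, Finset.coe_Icc, Set.mem_Icc]
    exact ⟨abs_le.1 h1, abs_le.1 h2, abs_le.1 h3⟩

/-- The complete quotients of a quadratic irrational are finite in number. -/
theorem finite_range_cq {x : ℝ} (hx : IsQuadraticIrrational x) : (Set.range (cq x)).Finite := by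
  obtain ⟨hirr, a, b, c, ha, h⟩ := hx
  obtain ⟨M, hM⟩ := exists_nat_ge (|(a : ℝ)| * (2 * |x| + 1) + |(b : ℝ)| + |(c : ℝ)|)
  refine (finite_roots (|b ^ 2 - 4 * a * c| + 4 * M * M + M)).subset ?_
  rintro _ ⟨n, rfl⟩
  exact exists_coeff_bound hirr ha h hM n

/-- **Lagrange's theorem.** -/
theorem periodic_iff {x : ℝ} (hx : Irrational x) :
    (∃ N k, 0 < k ∧ ∀ n, N ≤ n → digit x (n + k) = digit x n) ↔ IsQuadraticIrrational x := by
  refine ⟨fun ⟨N, k, hk, h⟩ => quadratic_of_periodic hx hk (cq_periodic hx h), fun h => ?_⟩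
  obtain ⟨i, j, hij, he⟩ : ∃ i j, i < j ∧ cq x i = cq x j := by
    have := (finite_range_cq h).to_subtype
    obtain ⟨i, j, hne, he⟩ := Finite.exists_ne_map_eq_of_infinite (Set.rangeFactorization (cq x))
    rcases hne.lt_or_gt with h | h
    · exact ⟨i, j, h, congrArg Subtype.val he⟩
    · exact ⟨j, i, h, (congrArg Subtype.val he).symm⟩
  refine ⟨i, j - i, Nat.sub_pos_of_lt hij, fun n hn => digit_periodic ?_ n hn⟩
  rw [Nat.add_sub_cancel' hij.le, he]

theorem isConjugate_step {u v : ℝ} (hu : Irrational u) (h : IsConjugate u v) (m : ℤ) :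
    IsConjugate (u - m)⁻¹ (v - m)⁻¹ ∧ v - m ≠ 0 := by
  obtain ⟨a, b, c, ha, h1, h2⟩ := h
  have hA : a * m ^ 2 + b * m + c ≠ 0 := by
    simpa using form_ne_zero hu ha h1 (p := m) (q := 1) (Or.inr one_ne_zero)
  have hprod : ((a * m ^ 2 + b * m + c : ℤ) : ℝ) = a * ((u - m) * (v - m)) := by
    push_cast
    linear_combination h1 - ((u : ℝ) - m) * h2
  have hum : u - m ≠ 0 := sub_ne_zero.2 (hu.ne_int m)
  have hvm : v - m ≠ 0 := fun h0 => hA (Int.cast_eq_zero.1 (hprod.trans (by rw [h0]; ring)))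
  refine ⟨⟨a * m ^ 2 + b * m + c, 2 * a * m + b, a, hA, ?_, ?_⟩, hvm⟩
  · push_cast
    field_simp
    linear_combination h1
  · rw [hprod]
    push_cast
    field_simp
    linear_combination h2

/-- The conjugates of the quotients of a reduced number. -/
theorem reduced_cq {x v : ℝ} (hx : Irrational x) (hv : IsConjugate x v) (hx1 : 1 < x)
    (hv1 : -1 < v) (hv2 : v < 0) (n : ℕ) :
    ∃ w, IsConjugate (cq x n) w ∧ -1 < w ∧ w < 0 ∧ 1 < cq x n := by
  induction n with
  | zero => exact ⟨v, hv, hv1, hv2, hx1⟩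
  | succ n ih =>
    obtain ⟨w, hw, hw1, hw2, hu⟩ := ih
    obtain ⟨hstep, hne⟩ := isConjugate_step (irrational_cq hx n) hw (digit x n)
    have hd : (1 : ℝ) ≤ digit x n := by exact_mod_cast Int.le_floor.2 (by exact_mod_cast hu.le)
    have hneg : w - digit x n < -1 := by linarith
    refine ⟨(w - digit x n)⁻¹, hstep, ?_, inv_lt_zero.2 (by linarith), one_lt_cq hx n⟩
    rw [show (-1 : ℝ) = (-1)⁻¹ by norm_num]
    exact (inv_lt_inv_of_neg (by norm_num) (by linarith)).2 hneg

/-- **Galois's theorem.** -/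
theorem purely_periodic_iff {x : ℝ} (hx : Irrational x) :
    (∃ k, 0 < k ∧ ∀ n, digit x (n + k) = digit x n) ↔
      ∃ v, IsConjugate x v ∧ 1 < x ∧ -1 < v ∧ v < 0 := by
  constructor
  · rintro ⟨k, hk, h⟩
    have hper : cq x (0 + k) = cq x 0 := cq_periodic hx fun n _ => h n
    obtain ⟨j, rfl⟩ : ∃ j, k = j + 1 := ⟨k - 1, by omega⟩
    have hx1 : 1 < x := by
      have := one_lt_cq hx j
      rwa [← zero_add (j + 1), hper] at this
    have hall : ∀ n, 1 ≤ digit x n := fun n => by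
      rcases n with _ | m
      · exact Int.le_floor.2 (by exact_mod_cast hx1.le)
      · exact one_le_digit hx m
    have hord : ∀ n, ∀ p p' q q' : ℤ, contin x (n + 1) = (p, p', q, q') →
        1 ≤ p' ∧ p' ≤ p ∧ 0 ≤ q' ∧ q' ≤ q ∧ 1 ≤ q ∧ (p' < p ∨ q' < q) := by
      intro n
      induction n with
      | zero =>
        intro p p' q q' he
        simp only [contin, Prod.mk.injEq] at he
        have := hall 0
        omega
      | succ n ih =>
        intro p p' q q' he
        obtain ⟨P, P', Q, Q', hE⟩ : ∃ P P' Q Q' : ℤ, contin x (n + 1) = (P, P', Q, Q') :=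
          ⟨_, _, _, _, rfl⟩
        obtain ⟨a1, a2, a3, a4, a5, a6⟩ := ih _ _ _ _ hE
        rw [contin, hE] at he
        simp only [Prod.mk.injEq] at he
        obtain ⟨rfl, rfl, rfl, rfl⟩ := he
        have hd := hall (n + 1)
        exact ⟨le_trans a1 a2, by nlinarith, by omega, by nlinarith, by nlinarith,
          Or.inl (by nlinarith)⟩
    obtain ⟨p, p', q, q', he, hrel, -, -, -⟩ := contin_spec hx (j + 1)
    obtain ⟨a1, a2, a3, a4, a5, a6⟩ := hord j p p' q q' he
    rw [← zero_add (j + 1), hper] at hrel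
    have hq : (0 : ℝ) < q := by exact_mod_cast (by omega : (0 : ℤ) < q)
    refine ⟨-((q' : ℝ) - p) / q - x, ⟨q, q' - p, -p', by omega, ?_, ?_⟩, hx1, ?_, ?_⟩
    · push_cast
      simp only [cq] at hrel
      linear_combination hrel
    · push_cast
      field_simp
      ring
    all_goals
      simp only [cq] at hrel
      set v := -((q' : ℝ) - p) / q - x with hv
      have hsum : (q : ℝ) * (x + v) = -((q' : ℝ) - p) := by rw [hv]; field_simp; ring
      have hp' : (1 : ℝ) ≤ p' := by exact_mod_cast a1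
      have hval : ∀ z : ℝ, (q : ℝ) * z ^ 2 + ((q' : ℝ) - p) * z - p' = q * ((z - x) * (z - v)) :=
        fun z => by linear_combination hrel + (z - x) * hsum
    · have h1 : 0 < (q : ℝ) * (-1 : ℝ) ^ 2 + ((q' : ℝ) - p) * (-1) - p' := by
        have : q' + p' < p + q := by omega
        have : (q' : ℝ) + p' < p + q := by exact_mod_cast this
        linarith
      rw [hval] at h1
      by_contra! hle
      nlinarith [mul_nonneg (show (0 : ℝ) ≤ x + 1 by linarith)
        (show (0 : ℝ) ≤ -1 - v by linarith)]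
    · have h0 := hval 0
      by_contra! hge
      nlinarith [mul_nonneg (show (0 : ℝ) ≤ x by linarith) hge]
  · rintro ⟨v, hv, hx1, hv1, hv2⟩
    have hquad : IsQuadraticIrrational x := by
      obtain ⟨a, b, c, ha, h, -⟩ := hv
      exact ⟨hx, a, b, c, ha, h⟩
    obtain ⟨N, k, hk, h⟩ := (periodic_iff hx).2 hquad
    refine ⟨k, hk, fun n => digit_periodic (N := 0) ?_ n (Nat.zero_le n)⟩
    have hN := cq_periodic hx h
    clear h
    induction N with
    | zero => exact hN
    | succ N ih =>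
      refine ih ?_
      obtain ⟨w₁, hw₁, a1, a2, -⟩ := reduced_cq hx hv hx1 hv1 hv2 (N + k)
      obtain ⟨w₂, hw₂, b1, b2, -⟩ := reduced_cq hx hv hx1 hv1 hv2 N
      have e1 := (isConjugate_step (irrational_cq hx _) hw₁ (digit x (N + k))).1
      have e2 := (isConjugate_step (irrational_cq hx _) hw₂ (digit x N)).1
      rw [show (cq x (N + k) - (digit x (N + k) : ℝ))⁻¹ = cq x (N + k + 1) from rfl,
        show N + k + 1 = N + 1 + k by ring, hN] at e1
      have hw := inv_inj.1 (isConjugate_unique (irrational_cq hx _) e1 e2)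
      have hd : digit x (N + k) = digit x N := by
        have h1 : |((digit x (N + k) - digit x N : ℤ) : ℝ)| < 1 := by
          push_cast
          rw [abs_lt]
          constructor <;> linarith
        have : |digit x (N + k) - digit x N| < 1 := by exact_mod_cast h1
        rw [abs_lt] at this
        omega
      rw [cq_eq x (N + k), cq_eq x N, hd, show N + k + 1 = N + 1 + k by ring, hN]

end FA.PeriodicFractions

end
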