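import Mathlib.Algebra.ContinuedFractions.Computation.Translations
import Mathlib.NumberTheory.Real.Irrational
import Mathlib.Algebra.Order.Archimedean.Real.Basic
import Mathlib.Tactic

/-!
# Complete quotients and continuants

The complete quotients `x_n` of an irrational number and integers with
`x (q x_n + q') = p x_n + p'` and `p q' - p' q = ± 1`; two numbers with all digits equal are equal.
-/

set_option autoImplicit false

noncomputable section

open GenContFract

namespace FA.PeriodicFractions

/-- The complete quotients. -/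
def cq (x : ℝ) : ℕ → ℝ
  | 0 => x
  | n + 1 => (Int.fract (cq x n))⁻¹

/-- The digits. -/
def digit (x : ℝ) (n : ℕ) : ℤ := ⌊cq x n⌋

theorem cq_succ' (x : ℝ) (n : ℕ) : cq x (n + 1) = cq (Int.fract x)⁻¹ n := by
  induction n with
  | zero => rfl
  | succ n ih => rw [cq, ih, cq]

theorem cq_add (x : ℝ) (m n : ℕ) : cq x (m + n) = cq (cq x m) n := by
  induction n with
  | zero => rfl
  | succ n ih => rw [← add_assoc, cq, ih, cq]

theorem irrational_cq {x : ℝ} (hx : Irrational x) (n : ℕ) : Irrational (cq x n) := by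
  induction n with
  | zero => exact hx
  | succ n ih => exact (ih.sub_intCast ⌊cq x n⌋).inv

theorem fract_cq_pos {x : ℝ} (hx : Irrational x) (n : ℕ) : 0 < Int.fract (cq x n) :=
  (Int.fract_nonneg _).lt_of_ne fun h =>
    (irrational_cq hx n).ne_int ⌊cq x n⌋ (sub_eq_zero.1 h.symm)

theorem one_lt_cq {x : ℝ} (hx : Irrational x) (n : ℕ) : 1 < cq x (n + 1) :=
  (one_lt_inv₀ (fract_cq_pos hx n)).2 (Int.fract_lt_one _)

theorem one_le_digit {x : ℝ} (hx : Irrational x) (n : ℕ) : 1 ≤ digit x (n + 1) :=
  Int.le_floor.2 (by exact_mod_cast (one_lt_cq hx n).le)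

theorem cq_eq (x : ℝ) (n : ℕ) :
    cq x n = digit x n + 1 / cq x (n + 1) := by
  rw [one_div, cq, inv_inv, digit, Int.floor_add_fract]

/-- The continuants `(p, p', q, q')`. -/
def contin (x : ℝ) : ℕ → ℤ × ℤ × ℤ × ℤ
  | 0 => (1, 0, 0, 1)
  | n + 1 =>
    ((contin x n).1 * digit x n + (contin x n).2.1, (contin x n).1,
      (contin x n).2.2.1 * digit x n + (contin x n).2.2.2, (contin x n).2.2.1)

theorem contin_spec {x : ℝ} (hx : Irrational x) (n : ℕ) : ∃ p p' q q' : ℤ,
    contin x n = (p, p', q, q') ∧
    x * ((q : ℝ) * cq x n + q') = p * cq x n + p' ∧ |p * q' - p' * q| = 1 ∧ 0 ≤ q' ∧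
    (n = 0 ∨ 0 < q ∧ q' ≤ q) := by
  induction n with
  | zero => exact ⟨1, 0, 0, 1, rfl, by simp [cq], by simp, zero_le_one, Or.inl rfl⟩
  | succ n ih =>
    obtain ⟨p, p', q, q', he, hrel, hdet, hq', hq⟩ := ih
    refine ⟨p * digit x n + p', p, q * digit x n + q', q, by rw [contin, he], ?_, ?_, ?_,
      Or.inr ?_⟩
    · have h0 : cq x (n + 1) ≠ 0 := (zero_lt_one.trans (one_lt_cq hx n)).ne'
      rw [cq_eq x n] at hrel
      field_simp at hrel
      push_cast
      linear_combination hrel
    · rw [show (p * digit x n + p') * q - p * (q * digit x n + q') = -(p * q' - p' * q) by ring,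
        abs_neg, hdet]
    · rcases hq with rfl | hq
      · simp only [contin, Prod.mk.injEq] at he
        omega
      · exact hq.1.le
    · rcases hq with rfl | hq
      · simp only [contin, Prod.mk.injEq] at he
        obtain ⟨rfl, rfl, rfl, rfl⟩ := he
        omega
      · obtain ⟨m, rfl⟩ | rfl : (∃ m, n = m + 1) ∨ n = 0 := by
          rcases n with _ | m
          · exact Or.inr rfl
          · exact Or.inl ⟨m, rfl⟩
        · have := one_le_digit hx m
          constructor <;> nlinarith
        · simp only [contin, Prod.mk.injEq] at he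
          omega

/-- Two numbers with the same digits are equal. -/
theorem eq_of_digit_eq {u v : ℝ} (hu : Irrational u) (hv : Irrational v)
    (h : ∀ n, digit u n = digit v n) : u = v := by
  have hstep : ∀ n, |cq u n - cq v n| * (cq u (n + 1) * cq v (n + 1)) =
      |cq u (n + 1) - cq v (n + 1)| := fun n => by
    have a := zero_lt_one.trans (one_lt_cq hu n)
    have b := zero_lt_one.trans (one_lt_cq hv n)
    rw [cq_eq u n, cq_eq v n, h n, add_sub_add_left_eq_sub, div_sub_div _ _ a.ne' b.ne',
      abs_div, abs_of_pos (mul_pos a b), div_mul_cancel₀ _ (mul_pos a b).ne', one_mul, mul_one,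
      abs_sub_comm]
  have htwo : ∀ {w : ℝ}, Irrational w → ∀ n, 2 ≤ cq w (n + 1) * cq w (n + 2) := fun {w} hw n => by
    have h2 := one_lt_cq hw (n + 1)
    rw [cq_eq w (n + 1), add_mul, one_div_mul_cancel (zero_lt_one.trans h2).ne']
    have : (1 : ℝ) ≤ digit w (n + 1) := by exact_mod_cast one_le_digit hw n
    nlinarith
  have hfour : ∀ n, 4 * |cq u n - cq v n| ≤ |cq u (n + 2) - cq v (n + 2)| := fun n => by
    rw [← hstep (n + 1), ← hstep n]
    have := mul_le_mul (htwo hu n) (htwo hv n) zero_le_two (zero_le_two.trans (htwo hu n))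
    have := mul_le_mul_of_nonneg_left this (abs_nonneg (cq u n - cq v n))
    linarith
  have hpow : ∀ j : ℕ, (4 : ℝ) ^ j * |u - v| < 1 := fun j => by
    have hle : (4 : ℝ) ^ j * |u - v| ≤ |cq u (2 * j) - cq v (2 * j)| := by
      induction j with
      | zero => simp [cq]
      | succ j ih =>
        refine le_trans ?_ (hfour (2 * j))
        rw [pow_succ', mul_assoc]
        linarith
    refine hle.trans_lt (Int.abs_sub_lt_one_of_floor_eq_floor ?_)
    exact h (2 * j)
  by_contra hne
  obtain ⟨j, hj⟩ := pow_unbounded_of_one_lt (1 / |u - v|) (by norm_num : (1 : ℝ) < 4)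
  rw [div_lt_iff₀ (abs_pos.2 (sub_ne_zero.2 hne))] at hj
  linarith [hpow j]

/-- The digits are those of `GenContFract.of`. -/
theorem get?_of {x : ℝ} (hx : Irrational x) (n : ℕ) :
    (GenContFract.of x).s.get? n = some ⟨1, (digit x (n + 1) : ℝ)⟩ := by
  induction n generalizing x with
  | zero =>
    have h := GenContFract.of_s_head (fract_cq_pos hx 0).ne'
    exact h
  | succ n ih =>
    rw [GenContFract.of_s_succ, ih (x := (Int.fract x)⁻¹) (irrational_cq hx 1)]
    rw [digit, digit, cq_succ' x (n + 1)]

theorem digit_zero (x : ℝ) : (GenContFract.of x).h = (digit x 0 : ℝ) := GenContFract.of_h_eq_floor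

/-- Periodic digits give a periodic quotient. -/
theorem cq_periodic {x : ℝ} (hx : Irrational x) {N k : ℕ}
    (h : ∀ n, N ≤ n → digit x (n + k) = digit x n) : cq x (N + k) = cq x N := by
  refine eq_of_digit_eq (irrational_cq hx _) (irrational_cq hx _) fun n => ?_
  have := h (N + n) (Nat.le_add_right _ _)
  rw [digit, digit] at this ⊢
  rw [← cq_add, ← cq_add]
  rwa [show N + k + n = N + n + k by ring]

theorem digit_periodic {x : ℝ} {N k : ℕ} (h : cq x (N + k) = cq x N) (n : ℕ) (hn : N ≤ n) :
    digit x (n + k) = digit x n := by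
  obtain ⟨d, rfl⟩ := Nat.exists_eq_add_of_le hn
  rw [digit, digit, show N + d + k = N + k + d by ring, cq_add, h, ← cq_add]

end FA.PeriodicFractions

end
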